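import Mathlib
import Fermat.Agent.LT2.Defs
import Fermat.Agent.LT.Descent.GlueingPlaces
import Fermat.Agent.LT.Descent.Identity

/-!
# Cosets of the base inside the cosets above at deep levels

At every place the cosets of the base map to the cosets above, bijectively at the split places.
-/

set_option autoImplicit false

noncomputable section

open Matrix IsDedekindDomain NumberField WithZero
open scoped MatrixGroups

namespace FermatAgent.LT2

open FermatAgent.LT
open FermatAgent.LT.TwistCtx (Fam Pt incl ft actFam)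

section Dense

variable {K L : Type*} [Field K] [NumberField K] [Field L] [NumberField L] {φ : K →+* L}
  {w : HeightOneSpectrum (𝓞 L)}

lemma val_of_near {M : Matrix (Fin 2) (Fin 2) L}
    (hs : ∀ i j, w.valuation L ((M - 1) i j) < 1) : IntMat w M ∧ w.valuation L M.det = 1 := by
  have hone : IntMat w (1 : Matrix (Fin 2) (Fin 2) L) := fun i j => by
    rw [Matrix.one_apply]; split_ifs <;> simp
  have hi : IntMat w M := fun i j => by
    rw [show M i j = (M - 1) i j + (1 : Matrix (Fin 2) (Fin 2) L) i j by simp]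
    exact ((w.valuation L).map_add _ _).trans (max_le (hs i j).le (hone i j))
  exact ⟨hi, val_eq_one_of_sub_lt (b := (1 : Matrix (Fin 2) (Fin 2) L).det) (by simp)
    (val_det_sub_lt hi hone hs)⟩

/-- Matrices congruent to one are locally integral with unit determinant. -/
lemma mem_locGL_of_near {h : GL (Fin 2) L}
    (hs : ∀ i j, w.valuation L ((h.val - 1) i j) < 1) : h ∈ locGL w :=
  val_of_near hs

omit [NumberField K]

/-- A dense field gives a dense matrix group. -/
theorem exists_near_of_dense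
    (hd : ∀ (x : L) (r : WithZero (Multiplicative ℤ)), r ≠ 0 → ∃ k, w.valuation L (φ k - x) ≤ r)
    (c : GL (Fin 2) L) {e : WithZero (Multiplicative ℤ)} (he : e ≠ 0) (he1 : e < 1) :
    ∃ g : GL (Fin 2) K, ∀ i j,
      w.valuation L (((c⁻¹ * GeneralLinearGroup.map φ g).val - 1) i j) ≤ e := by
  set B := max 1 (max (max (w.valuation L ((c⁻¹).val 0 0)) (w.valuation L ((c⁻¹).val 0 1)))
    (max (w.valuation L ((c⁻¹).val 1 0)) (w.valuation L ((c⁻¹).val 1 1))))
  have hB : ∀ i j, w.valuation L ((c⁻¹).val i j) ≤ B := fun i j => by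
    fin_cases i <;> fin_cases j <;> simp [B]
  have hB0 : B ≠ 0 := (zero_lt_one.trans_le (le_max_left _ _)).ne'
  choose k hk using fun i j => hd (c.val i j) (B⁻¹ * e) (mul_ne_zero (inv_ne_zero hB0) he)
  set M : Matrix (Fin 2) (Fin 2) L := (c⁻¹).val * (Matrix.of k).map φ
  have hM : ∀ i j, w.valuation L ((M - 1) i j) ≤ e := fun i j => by
    rw [show M - 1 = (c⁻¹).val * ((Matrix.of k).map φ - c.val) by
      rw [mul_sub, ← Units.val_mul, inv_mul_cancel, Units.val_one], Matrix.mul_apply,
      Fin.sum_univ_two]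
    refine ((w.valuation L).map_add _ _).trans (max_le ?_ ?_) <;>
    · rw [map_mul]
      refine (mul_le_mul' (hB _ _) (hk _ _)).trans_eq ?_
      rw [← mul_assoc, mul_inv_cancel₀ hB0, one_mul]
  have hdet : w.valuation L M.det = 1 :=
    (val_of_near fun i j => (hM i j).trans_lt he1).2
  have hkdet : (Matrix.of k).det ≠ 0 := fun h0 => by
    rw [show M.det = _ from Matrix.det_mul _ _, ← RingHom.mapMatrix_apply, ← RingHom.map_det, h0,
      map_zero, mul_zero, map_zero] at hdet
    exact zero_ne_one hdet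
  refine ⟨GeneralLinearGroup.mkOfDetNeZero _ hkdet, fun i j => ?_⟩
  rw [show (c⁻¹ * GeneralLinearGroup.map φ (GeneralLinearGroup.mkOfDetNeZero _ hkdet)).val = M from
    Units.val_mul _ _]
  exact hM i j

/-- A dense field gives a dense matrix group modulo any congruence level. -/
theorem exists_mem_of_dense {U : Level L} (hU : U.IsCongr)
    (hd : ∀ (x : L) (r : WithZero (Multiplicative ℤ)), r ≠ 0 → ∃ k, w.valuation L (φ k - x) ≤ r)
    (c : G2 L) : ∃ g : G2 K, c⁻¹ * g2Map φ g ∈ U.loc w := by
  obtain ⟨n, hn⟩ := hU w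
  obtain ⟨c, rfl⟩ := ProjGenLinGroup.mk_surjective c
  have h1 : exp (-((n : ℤ) + 1)) < (1 : WithZero (Multiplicative ℤ)) := by
    rw [← WithZero.exp_zero, exp_lt_exp]; omega
  obtain ⟨g, hg⟩ := exists_near_of_dense hd c exp_ne_zero h1
  refine ⟨ProjGenLinGroup.mk g, ?_⟩
  rw [ProjGenLinGroup.map_mk, ← map_inv, ← map_mul]
  exact hn _ (mem_locGL_of_near fun i j => (hg i j).trans_lt h1) hg

/-- A dense field moves any two cosets as any element does. -/
theorem exists_smul_eq_of_dense {U : Level L} (hU : U.IsCongr)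
    (hd : ∀ (x : L) (r : WithZero (Multiplicative ℤ)), r ≠ 0 → ∃ k, w.valuation L (φ k - x) ≤ r)
    (γ : G2 L) (x y : G2 L ⧸ U.loc w) :
    ∃ g : G2 K, g2Map φ g • x = γ • x ∧ g2Map φ g • y = γ • y := by
  obtain ⟨n, hn⟩ := hU w
  obtain ⟨γ, rfl⟩ := ProjGenLinGroup.mk_surjective γ
  obtain ⟨x, rfl⟩ := QuotientGroup.mk_surjective x
  obtain ⟨y, rfl⟩ := QuotientGroup.mk_surjective y
  obtain ⟨A, rfl⟩ := ProjGenLinGroup.mk_surjective x
  obtain ⟨A', rfl⟩ := ProjGenLinGroup.mk_surjective y
  let vmax : GL (Fin 2) L → WithZero (Multiplicative ℤ) := fun A =>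
    (Finset.univ : Finset (Fin 2 × Fin 2)).sup fun p =>
      max (w.valuation L (A.val p.1 p.2)) (w.valuation L ((A⁻¹).val p.1 p.2))
  set B := max 1 (max (vmax A) (vmax A'))
  have hB0 : B ≠ 0 := (zero_lt_one.trans_le (le_max_left _ _)).ne'
  have h1 : exp (-((n : ℤ) + 1)) < (1 : WithZero (Multiplicative ℤ)) := by
    rw [← WithZero.exp_zero, exp_lt_exp]; omega
  set e := min (exp (-((n : ℤ) + 1)) * (B * B)⁻¹) (exp (-1 : ℤ))
  have he : e ≠ 0 := fun h => by
    rcases min_choice (exp (-((n : ℤ) + 1)) * (B * B)⁻¹) (exp (-1 : ℤ)) with h' | h' <;>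
      rw [show e = _ from h'] at h
    · simp [hB0] at h
    · exact exp_ne_zero h
  have he1 : e < 1 := (min_le_right _ _).trans_lt (by rw [← WithZero.exp_zero, exp_lt_exp]; omega)
  obtain ⟨g, hg⟩ := exists_near_of_dense hd γ he he1
  set h := γ⁻¹ * GeneralLinearGroup.map φ g
  have key : ∀ D : GL (Fin 2) L, vmax D ≤ B →
      g2Map φ (ProjGenLinGroup.mk g) •
          (QuotientGroup.mk (ProjGenLinGroup.mk D) : G2 L ⧸ U.loc w) =
        (ProjGenLinGroup.mk γ : G2 L) • QuotientGroup.mk (ProjGenLinGroup.mk D) := fun D hD => by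
    have hv : ∀ i j, w.valuation L (D.val i j) ≤ B ∧ w.valuation L ((D⁻¹).val i j) ≤ B :=
      fun i j => max_le_iff.mp ((Finset.le_sup (f := fun p : Fin 2 × Fin 2 =>
        max (w.valuation L (D.val p.1 p.2)) (w.valuation L ((D⁻¹).val p.1 p.2)))
        (Finset.mem_univ (i, j))).trans hD)
    have hs : ∀ i j,
        w.valuation L (((D⁻¹ * (h * D)).val - 1) i j) ≤ exp (-((n : ℤ) + 1)) := fun i j => by
      rw [show (D⁻¹ * (h * D)).val - 1 = (D⁻¹).val * ((h.val - 1) * D.val) by
        rw [Matrix.sub_mul, Matrix.one_mul, Matrix.mul_sub, Units.val_mul, Units.val_mul,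
          Units.inv_mul], Matrix.mul_apply]
      refine Valuation.map_sum_le _ fun k _ => ?_
      rw [map_mul, Matrix.mul_apply]
      refine (mul_le_mul' (hv i k).2 (Valuation.map_sum_le _ (g := e * B) fun l _ => ?_)).trans ?_
      · rw [map_mul]; exact mul_le_mul' (hg k l) (hv l j).1
      · refine (mul_le_mul' le_rfl (mul_le_mul' (min_le_left _ _) le_rfl)).trans_eq ?_
        field_simp
    have hmem := hn _ (mem_locGL_of_near fun i j => (hs i j).trans_lt h1) hs
    rw [ProjGenLinGroup.map_mk, MulAction.Quotient.smul_mk, MulAction.Quotient.smul_mk, smul_eq_mul,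
      smul_eq_mul, eq_comm, QuotientGroup.eq, ← map_mul, ← map_mul, ← map_inv, ← map_mul]
    convert hmem using 2
    simp only [h]
    group
  exact ⟨ProjGenLinGroup.mk g, key A ((le_max_left _ _).trans (le_max_right _ _)),
    key A' ((le_max_right _ _).trans (le_max_right _ _))⟩

end Dense

namespace Setup

variable {K L : Type*} [Field K] [NumberField K] [Field L] [NumberField L] [Algebra K L]
  (C : Setup K L)

/-- A place above lies over the place below. -/
lemma liesOver {v : HeightOneSpectrum (𝓞 K)} {w : HeightOneSpectrum (𝓞 L)} (hw : C.b w = v) :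
    w.asIdeal.LiesOver v.asIdeal :=
  ⟨by rw [← hw]; exact C.b_eq w⟩

/-- The absolute values are compatible at a place above. -/
lemma pair (w : HeightOneSpectrum (𝓞 L)) : PlacePair (algebraMap K L) (C.b w) w :=
  haveI := C.liesOver (w := w) rfl
  placePair_of_liesOver _ w

/-- Every place of the base has a place above. -/
lemma exists_over (v : HeightOneSpectrum (𝓞 K)) : ∃ w, C.b w = v := by
  have := v.isMaximal
  obtain ⟨Q, hQ, hQv⟩ := Ideal.exists_maximal_ideal_liesOver_of_isIntegral (S := 𝓞 L) v.asIdeal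
  refine ⟨⟨Q, hQ.isPrime, Ideal.ne_bot_of_liesOver_of_ne_bot v.ne_bot Q⟩, HeightOneSpectrum.ext ?_⟩
  rw [C.b_eq]
  exact hQv.over.symm

/-- The generator preserves the place below. -/
lemma b_next (w : HeightOneSpectrum (𝓞 L)) : C.b (placeMap C.τ w) = C.b w := by
  have h := C.b_tau (placeMap C.τ w)
  rwa [Equiv.symm_apply_apply, eq_comm] at h

/-- Places over the same place are conjugate. -/
lemma orbit {w w' : HeightOneSpectrum (𝓞 L)} (h : C.b w' = C.b w) :
    w' = w ∨ w' = placeMap C.τ w ∨ w' = placeMap C.τ (placeMap C.τ w) :=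
  C.twist.orbit (C.pair w) (h ▸ C.pair w')

/-- A fixed place is the only one above. -/
lemma eq_of_fixed {w w' : HeightOneSpectrum (𝓞 L)} (hw : placeMap C.τ w = w)
    (h : C.b w' = C.b w) : w' = w := by
  rcases C.orbit h with e | e | e <;> simp [e, hw]

/-- A moved place lies over a split place. -/
lemma isSplit_of_moved {w : HeightOneSpectrum (𝓞 L)} (hw : placeMap C.τ w ≠ w) :
    C.IsSplit (C.b w) := fun w' h' hw' => hw (by
  have e := C.eq_of_fixed hw' h'.symm
  rw [e]; exact hw')

/-- A non-split place has a fixed place above. -/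
lemma exists_fixed {v : HeightOneSpectrum (𝓞 K)} (hv : ¬C.IsSplit v) :
    ∃ w, C.b w = v ∧ placeMap C.τ w = w := by
  simpa [IsSplit] using hv

/-- At a moved place the valuation restricts without exponent. -/
lemma val_of_moved {w : HeightOneSpectrum (𝓞 L)} (hw : placeMap C.τ w ≠ w) (x : K) :
    w.valuation L (algebraMap K L x) = (C.b w).valuation K x := by
  obtain ⟨e, he, hx⟩ := C.pair w
  obtain ⟨π, hπ⟩ := w.valuation_exists_uniformizer L
  obtain ⟨k, hk⟩ := C.twist.exists_near hw π (r := exp (-2 : ℤ)) exp_ne_zero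
  have h1 : w.valuation L (algebraMap K L k) = exp (-1 : ℤ) := by
    rw [← hπ]
    refine Valuation.map_eq_of_sub_lt _ (hk.trans_lt ?_)
    rw [hπ, exp_lt_exp]
    omega
  have h2 := hx k
  rw [h1] at h2
  have hk0 : (C.b w).valuation K k ≠ 0 := fun h => by
    rw [h, zero_pow he] at h2
    exact exp_ne_zero h2
  rw [← exp_log hk0, ← WithZero.exp_nsmul, exp_inj, nsmul_eq_mul] at h2
  have he1 : (e : ℤ) = 1 :=
    Int.eq_one_of_mul_eq_one_right (Int.natCast_nonneg e)
      (b := -log ((C.b w).valuation K k)) (by linarith)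
  rw [hx, show e = 1 by omega, pow_one]

end Setup

namespace Ctx

variable {K L : Type*} [Field K] [NumberField K] [Field L] [NumberField L] [Algebra K L]
  (C : Ctx K L)

/-- The absolute values are compatible at a place of the fibre. -/
lemma pair' {v : HeightOneSpectrum (𝓞 K)} (u : C.Fib v) :
    PlacePair (algebraMap K L) v u.1 := by
  have := C.pair u.1
  rwa [u.2] at this

/-- The inclusion of a coset. -/
@[simp] lemma up_mk {v : HeightOneSpectrum (𝓞 K)} (u : C.Fib v) (g : G2 K) :
    C.up u (QuotientGroup.mk g) = QuotientGroup.mk (incl (K := K) (L := L) g) := rfl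

/-- The inclusion of cosets is equivariant. -/
lemma up_smul {v : HeightOneSpectrum (𝓞 K)} (u : C.Fib v) (g : G2 K) (z : Pt C.X v) :
    C.up u (g • z) = incl (K := K) (L := L) g • C.up u z := by
  induction z using QuotientGroup.induction_on with | H a =>
  show (QuotientGroup.mk (incl (K := K) (L := L) (g * a)) : G2 L ⧸ C.UL.loc u.1) =
    incl (K := K) (L := L) g • QuotientGroup.mk (incl (K := K) (L := L) a)
  rw [map_mul]
  rfl

/-- The preceding place above. -/
def prev {v : HeightOneSpectrum (𝓞 K)} (u : C.Fib v) : C.Fib v :=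
  ⟨(placeMap C.τ).symm u.1, (C.b_tau u.1).trans u.2⟩

/-- The generator between cosets at two places. -/
def sg {v : HeightOneSpectrum (𝓞 K)} (u : C.Fib v)
    (x : G2 L ⧸ C.UL.loc (C.prev u).1) : G2 L ⧸ C.UL.loc u.1 :=
  (LevelHom.ofAut C.stable).locMap u.1 x

/-- The generator on a coset. -/
lemma sg_mk {v : HeightOneSpectrum (𝓞 K)} (u : C.Fib v) (g : G2 L) :
    C.sg u (QuotientGroup.mk g) = QuotientGroup.mk (g2Map (C.τ : L →+* L) g) := rfl

/-- The generator is semilinear on cosets. -/
lemma sg_smul {v : HeightOneSpectrum (𝓞 K)} (u : C.Fib v) (g : G2 L)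
    (x : G2 L ⧸ C.UL.loc (C.prev u).1) :
    C.sg u (g • x) = g2Map (C.τ : L →+* L) g • C.sg u x := by
  induction x using QuotientGroup.induction_on with | H a =>
  rw [MulAction.Quotient.smul_mk, sg_mk, sg_mk, MulAction.Quotient.smul_mk, smul_eq_mul,
    smul_eq_mul, map_mul]

/-- The generator respects inclusions. -/
lemma sg_up {v : HeightOneSpectrum (𝓞 K)} (u : C.Fib v) (z : Pt C.X v) :
    C.sg u (C.up (C.prev u) z) = C.up u z := by
  induction z using QuotientGroup.induction_on with | H a =>
  rw [up_mk, sg_mk, C.X.sg_incl, up_mk]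

/-- The twisted family map. -/
lemma ft_apply (γ : G2 L) {v : HeightOneSpectrum (𝓞 K)} (x : Fam C.B v) (u : C.Fib v) :
    ft C.B γ v x u = γ • C.sg u (x (C.prev u)) := rfl

section Split

variable {v : HeightOneSpectrum (𝓞 K)} (hv : C.IsSplit v) (u : C.Fib v)

include hv

/-- Density at a split place. -/
lemma up_surjective : Function.Surjective (C.up u) := by
  intro x
  induction x using QuotientGroup.induction_on with | H c =>
  obtain ⟨g, hg⟩ := exists_mem_of_dense (φ := algebraMap K L) (w := u.1) C.congrL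
    (fun y r hr => C.twist.exists_near (hv u.1 u.2) y hr) c
  refine ⟨QuotientGroup.mk g, ?_⟩
  rw [up_mk, eq_comm, QuotientGroup.eq]
  exact hg

lemma mem_of_incl_mem {g : G2 K} (hg : incl (K := K) (L := L) g ∈ C.UL.loc u.1) :
    g ∈ C.UK.loc v := by
  rw [← u.2]
  exact C.mem_of_incl' u.1 (hv u.1 u.2) g hg

/-- The inclusion is bijective. -/
lemma up_bijective : Function.Bijective (C.up u) := by
  refine ⟨fun a b hab => ?_, C.up_surjective hv u⟩
  induction a using QuotientGroup.induction_on with | H a =>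
  induction b using QuotientGroup.induction_on with | H b =>
  rw [up_mk, up_mk, QuotientGroup.eq, ← map_inv, ← map_mul] at hab
  exact QuotientGroup.eq.mpr (C.mem_of_incl_mem hv u hab)

end Split

/-- The constant lift. -/
def liftFam (v : HeightOneSpectrum (𝓞 K)) (z : Pt C.X v) : Fam C.B v := fun u => C.up u z

/-- The lifted family is equivariant. -/
lemma liftFam_smul (h : G2 K) {v : HeightOneSpectrum (𝓞 K)} (z : Pt C.X v) :
    C.liftFam v (h • z) = actFam C.B h (C.liftFam v z) :=
  funext fun u => C.up_smul u h z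

end Ctx

end FermatAgent.LT2
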