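import Mathlib
import Fermat.Agent.LT2.Glue.Base
import Fermat.Agent.LT.Descent.GlueingRet
import Fermat.Agent.LT.Descent.ClassesBasic

/-!
# Local gluing at a place with one place above

At a place with one place above where the level above is maximal and the kernel above is trivial,
the twisted fixed cosets retract to the base: a kernel below which counts them glues.  This is the
case at the inert places outside the bad ones.
-/

set_option autoImplicit false

noncomputable section

open Matrix IsDedekindDomain NumberField WithZero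
open scoped MatrixGroups Pointwise

namespace FermatAgent.LT2

open FermatAgent.LT
open FermatAgent.LT.TwistCtx (Fam Pt incl ft actFam KerPair)

namespace Ctx

variable {K L : Type*} [Field K] [NumberField K] [Field L] [NumberField L] [Algebra K L]
  (C : Ctx K L) {v : HeightOneSpectrum (𝓞 K)}

/-- A fixed good place gives a non-split pair. -/
lemma nonSplit (hS : v ∉ C.S) {u : C.Fib v} (hu : placeMap C.τ u.1 = u.1) :
    NonSplit C.τ v u.1 :=
  haveI := C.liesOver u.2
  NonSplit.of_fixed C.twist hu (C.three v hS)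

/-- A non-split place has a fixed place in its fibre. -/
lemma exists_fixed' (hv : ¬C.IsSplit v) : ∃ u : C.Fib v, placeMap C.τ u.1 = u.1 :=
  let ⟨w, hw, hfix⟩ := C.exists_fixed hv
  ⟨⟨w, hw⟩, hfix⟩

/-- A fibre with a fixed place is a single place. -/
lemma subsingleton_fib {u : C.Fib v} (hu : placeMap C.τ u.1 = u.1) (u' : C.Fib v) : u' = u :=
  Subtype.ext (C.eq_of_fixed hu (u'.2.trans u.2.symm))

/-- A fixed good place is unramified. -/
lemma not_ramified (hS : v ∉ C.S) {u : C.Fib v} (hu : placeMap C.τ u.1 = u.1)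
    (h : NonSplit C.τ v u.1) : ¬h.Ramified := fun hr => by
  obtain ⟨π, hπ⟩ := v.valuation_exists_uniformizer K
  have h1 := C.unram u.1 (by rw [u.2]; exact hS) hu π
  rw [u.2, hr π, hπ, ← WithZero.exp_nsmul, WithZero.exp_inj] at h1
  norm_num at h1

/-- The image of a coset modulo the maximal compact group below. -/
def bar (z : Pt C.X v) : G2 K ⧸ locK v := Subgroup.quotientMapOfLE (C.UK.le v) z

/-- The projection to the maximal level is equivariant. -/
lemma bar_smul (g : G2 K) (z : Pt C.X v) : C.bar (g • z) = g • C.bar z :=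
  projLE_smul _ g z

/-- The projection of a coset. -/
lemma bar_mk (g : G2 K) : C.bar (QuotientGroup.mk g : Pt C.X v) = QuotientGroup.mk g := rfl

lemma bar_fibre (hK : (C.UK.loc v).relIndex (locK v) ≠ 0) (d : G2 K ⧸ locK v) :
    {z : Pt C.X v | C.bar z = d}.Finite ∧
      {z : Pt C.X v | C.bar z = d}.ncard = (C.UK.loc v).relIndex (locK v) :=
  projLE_fibre (C.UK.le v) hK d

/-- The level has finite index in the maximal one. -/
lemma relIndex_pos (hS : v ∉ C.S) : (C.UK.loc v).relIndex (locK v) ≠ 0 := by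
  rw [C.UK_else v hS, Subgroup.relIndex_self]; exact one_ne_zero

/-- The level above a good place is maximal. -/
lemma UL_else' (hS : v ∉ C.S) (u : C.Fib v) : C.UL.loc u.1 = locK u.1 :=
  C.UL_else u.1 (by rw [u.2]; exact hS)

/-- The coset of a family modulo the maximal compact group above. -/
def pr (u : C.Fib v) (x : Fam C.B v) : G2 L ⧸ locK u.1 :=
  Subgroup.quotientMapOfLE (C.UL.le u.1) (x u)

lemma pr_actFam (u : C.Fib v) (g : G2 K) (x : Fam C.B v) :
    C.pr u (actFam C.B g x) = incl (K := K) (L := L) g • C.pr u x :=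
  projLE_smul _ _ _

/-- The projection is injective at good places. -/
lemma bar_injective (hS : v ∉ C.S) : Function.Injective (C.bar (v := v)) :=
  projLE_injective (C.UK.le v) (C.UK_else v hS).ge

variable {u : C.Fib v} (hu : placeMap C.τ u.1 = u.1) (hL : C.UL.loc u.1 = locK u.1)

include hu in
lemma exists_const (x : Fam C.B v) : ∃ g : G2 L, x = fun _ => QuotientGroup.mk g := by
  obtain ⟨g, hg⟩ := QuotientGroup.mk_surjective (x u)
  refine ⟨g, funext fun u' => ?_⟩
  obtain rfl := C.subsingleton_fib hu u'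
  exact hg.symm

include hu hL in
/-- The projection of families is bijective. -/
lemma pr_bijective : Function.Bijective (C.pr u) := by
  refine ⟨fun x y e => funext fun u' => ?_, fun c => ?_⟩
  · obtain rfl := C.subsingleton_fib hu u'
    exact projLE_injective _ hL.ge e
  · obtain ⟨g, rfl⟩ := QuotientGroup.mk_surjective c
    exact ⟨fun _ => QuotientGroup.mk g, rfl⟩

variable (h : NonSplit C.τ v u.1)

include hu in
/-- The projection intertwines the twisted maps. -/
lemma pr_ft (γ : G2 L) (x : Fam C.B v) :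
    C.pr u (ft C.B γ v x) = γ • h.sgCos (C.pr u x) := by
  obtain ⟨g, rfl⟩ := C.exists_const hu x
  rfl

variable {kw : ∀ u : C.Fib v, LocKer C.UL u.1} (hkw : ∀ u, kw u = 1) {kv : LocKer C.UK v}

open Classical in
include hu hL h hkw in
lemma loc_one (γ : G2 L) (x : Fam C.B v) :
    (∏ u' : C.Fib v, (kw u').k (ft C.B γ v x u') (x u')) =
      if C.pr u x ∈ h.twFix γ then 1 else 0 := by
  have huniv : (Finset.univ : Finset (C.Fib v)) = {u} := by
    ext u'
    simpa using C.subsingleton_fib hu u'
  rw [huniv, Finset.prod_singleton, hkw, LocKer.one_k]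
  refine if_congr ?_ rfl rfl
  show _ ↔ γ • h.sgCos (C.pr u x) = C.pr u x
  rw [← C.pr_ft hu h, (C.pr_bijective hu hL).1.eq_iff]
  refine ⟨fun e => funext fun u' => ?_, fun e => congrFun e u⟩
  obtain rfl := C.subsingleton_fib hu u'
  exact e

section Inert

variable {D : C.Bad} (S : Sys D) (hv : ¬C.IsSplit v) (hS : v ∉ C.S)

include hv hS in
/-- The weight kernel at an inert place is one. -/
lemma kw_inert (u' : C.Fib v) : S.P.kw u'.1 = 1 :=
  S.kw_good u'.1 (by rw [u'.2]; exact hv) (by rw [u'.2]; exact hS)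

variable (δ : GL (Fin 2) K)

include hv hS in
/-- The kernel below vanishes off the fixed cosets. -/
lemma kv_eq_zero {z : Pt C.X v}
    (hz : (ProjGenLinGroup.mk δ : G2 K) • C.bar z ≠ C.bar z) :
    (S.P.kv v).k ((ProjGenLinGroup.mk δ : G2 K) • z) z = 0 := by
  classical
  rw [S.kv_good v hv hS, LocKer.one_k, if_neg]
  intro e
  exact hz (by rw [← C.bar_smul, e])

include hv hu hS h in
/-- The kernel below counts the commonly fixed cosets over a coset. -/
lemma kv_eq_count {z : Pt C.X v} :
    (S.P.kv v).k ((ProjGenLinGroup.mk δ : G2 K) • z) z =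
      ((C.UK.loc v).relIndex (locK v) : ℂ)⁻¹ *
        ((h.retSet (C.bar z) ∩ h.baseFix δ).ncard : ℂ) := by
  classical
  by_cases hd : (ProjGenLinGroup.mk δ : G2 K) • C.bar z = C.bar z
  swap
  · rw [C.kv_eq_zero S hv hS δ hd, h.retSet_inter_eq_empty δ hd, Set.ncard_empty,
      Nat.cast_zero, mul_zero]
  have hi : h.Inert := h.inert_or_ramified.resolve_right (C.not_ramified hS hu h)
  rw [S.kv_good v hv hS, LocKer.one_k, if_pos (C.bar_injective hS ((C.bar_smul _ z).trans hd)),
    h.ncard_retSet_inert hi δ hd, C.UK_else v hS, Subgroup.relIndex_self, Nat.cast_one, inv_one,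
    one_mul]

end Inert

open Classical in
/-- The weight at a place with one place above. -/
def nsA (t : G2 L) (x : Fam C.B v) (z : Pt C.X v) : ℝ :=
  if t⁻¹ • C.pr u x ∈ h.retSet (C.bar z) then ((C.UK.loc v).relIndex (locK v) : ℝ)⁻¹ else 0

include hu hL hkw in
/-- Gluing at a place with one place above. -/
theorem locGlue_nonsplit (hK : (C.UK.loc v).relIndex (locK v) ≠ 0) {γ t : G2 L}
    (δ : GL (Fin 2) K) (H : Subgroup (G2 K))
    (hkv : ∀ z, kv.k ((ProjGenLinGroup.mk δ : G2 K) • z) z =
      ((C.UK.loc v).relIndex (locK v) : ℂ)⁻¹ *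
        ((h.retSet (C.bar z) ∩ h.baseFix δ).ncard : ℂ))
    (htr : h.twFix γ = (fun x => t • x) '' h.baseFix δ)
    (ht : ∀ g ∈ H, Commute (incl (K := K) (L := L) g) t) :
    C.LocGlue kw kv γ (ProjGenLinGroup.mk δ) H (C.nsA h t) := by
  classical
  set Φ : Fam C.B v → G2 L ⧸ locK u.1 := fun x => t⁻¹ • C.pr u x
  have hΦ : Function.Bijective Φ := (MulAction.bijective t⁻¹).comp (C.pr_bijective hu hL)
  set α : ℝ := ((C.UK.loc v).relIndex (locK v) : ℝ)⁻¹
  have hloc : ∀ x, (∏ u' : C.Fib v, (kw u').k (ft C.B γ v x u') (x u')) =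
      if Φ x ∈ h.baseFix δ then 1 else 0 := fun x => by
    rw [C.loc_one hu hL h hkw]
    refine if_congr ?_ rfl rfl
    rw [htr]
    refine ⟨?_, fun hx => ⟨Φ x, hx, smul_inv_smul t _⟩⟩
    rintro ⟨y, hy, e⟩
    simpa [Φ, ← e] using hy
  have hprod : ∀ x z, (∏ u' : C.Fib v, (kw u').k (ft C.B γ v x u') (x u')) *
      (C.nsA h t x z : ℂ) =
      if Φ x ∈ h.retSet (C.bar z) ∩ h.baseFix δ then (α : ℂ) else 0 := fun x z => by
    rw [hloc]
    unfold nsA
    by_cases h1 : Φ x ∈ h.baseFix δ <;> by_cases h2 : Φ x ∈ h.retSet (C.bar z) <;>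
      simp [h1, h2, Φ, α] at *
  refine ⟨fun x z => ?_, fun z => ?_, fun z => ?_, fun x hx => ?_, fun x => ?_, fun g hg x z => ?_⟩
  · unfold nsA; split_ifs
    exacts [inv_nonneg.mpr (Nat.cast_nonneg _), le_rfl]
  · refine (((h.finite_retSet (C.bar z)).inter_of_left (h.baseFix δ)).preimage hΦ.1.injOn).subset
      fun x hx => ?_
    by_contra hne
    rw [Set.mem_preimage] at hne
    exact hx (by rw [hprod, if_neg hne])
  · have e1 : (∑' x, if Φ x ∈ h.retSet (C.bar z) ∩ h.baseFix δ then (α : ℂ) else 0) =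
        ∑' c, if c ∈ h.retSet (C.bar z) ∩ h.baseFix δ then (α : ℂ) else 0 :=
      (Equiv.ofBijective Φ hΦ).tsum_eq (fun c =>
        if c ∈ h.retSet (C.bar z) ∩ h.baseFix δ then (α : ℂ) else 0)
    rw [hkv, tsum_congr fun x => hprod x z, e1,
      tsum_eq_sum (s := ((h.finite_retSet (C.bar z)).inter_of_left (h.baseFix δ)).toFinset)
        fun c hc' => if_neg (by simpa using hc'),
      Finset.sum_congr rfl fun c hc' => if_pos ((Set.Finite.mem_toFinset _).mp hc'),
      Finset.sum_const, nsmul_eq_mul, ← Set.ncard_eq_toFinset_card _ _]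
    simp [α]
    ring
  · rw [hloc] at hx
    split_ifs at hx with hb
    swap
    · exact absurd rfl hx
    obtain ⟨d, hd⟩ := h.exists_mem_retSet hb.1
    have e : ∀ z, C.nsA h t x z = if C.bar z = d then α else 0 := fun z => by
      unfold nsA
      exact if_congr ⟨fun h2 => h.retSet_unique h2 hd, fun h2 => h2 ▸ hd⟩ rfl rfl
    have hSf := (C.bar_fibre hK d).1
    have hsum : HasSum (C.nsA h t x) (∑ z ∈ hSf.toFinset, C.nsA h t x z) :=
      hasSum_sum_of_ne_finset_zero fun z hz => by rw [e, if_neg (by simpa using hz)]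
    convert hsum
    rw [Finset.sum_congr rfl fun z hz => (e z).trans (if_pos (by simpa using hz)), Finset.sum_const,
      ← Set.ncard_eq_toFinset_card _ hSf, (C.bar_fibre hK d).2, nsmul_eq_mul, mul_inv_cancel₀]
    exact_mod_cast hK
  · by_cases hx : ∃ d, Φ x ∈ h.retSet d
    · obtain ⟨d, hd⟩ := hx
      refine (C.bar_fibre hK d).1.subset fun z hz => ?_
      simp only [Set.mem_ofPred_eq, nsA, ne_eq, ite_eq_right_iff, not_forall] at hz ⊢
      exact h.retSet_unique hz.1 hd
    · refine Set.finite_empty.subset fun z hz => ?_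
      simp only [Set.mem_ofPred_eq, nsA, ne_eq, ite_eq_right_iff, not_forall] at hz
      exact hx ⟨_, hz.1⟩
  · unfold nsA
    refine if_congr ?_ rfl rfl
    rw [C.pr_actFam, C.bar_smul, ← mul_smul, ← (ht g hg).inv_right.eq, mul_smul]
    exact h.smul_mem_retSet_iff g

include hu hL h hkw in
/-- Gluing when no coset is fixed. -/
theorem locGlue_zero {γ : G2 L} {δ : G2 K} (H : Subgroup (G2 K)) (he : h.twFix γ = ∅)
    (hkv : ∀ z : Pt C.X v, kv.k (δ • z) z = 0) :
    C.LocGlue kw kv γ δ H (fun _ _ => 0) where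
  nonneg _ _ := le_rfl
  finite_x _ := by simp
  sum_x z := by simp [hkv]
  sum_z x hx := by
    classical
    rw [C.loc_one hu hL h hkw, he, if_neg (Set.notMem_empty _)] at hx
    exact absurd rfl hx
  finite_z _ := by simp
  equiv _ _ _ _ := rfl

include hu hL in
/-- The weight sits on boundedly many translates of the base. -/
theorem explicitAt_nsA {δ : GL (Fin 2) K} {t : GL (Fin 2) L} (htc : Commute t (upGL δ)) :
    C.ExplicitAt δ (C.nsA h (ProjGenLinGroup.mk t)) := by
  classical
  refine ⟨t, ((h.finite_retSet (QuotientGroup.mk 1)).image Quotient.out).toFinset, htc,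
    fun x z hne g hg u' => ?_⟩
  obtain rfl := C.subsingleton_fib hu u'
  unfold nsA at hne
  rw [ite_ne_right_iff, ← hg, C.bar_mk] at hne
  set c := (ProjGenLinGroup.mk t)⁻¹ • C.pr u' x
  set c₀ := (incl (K := K) (L := L) g)⁻¹ • c
  have hc₀ : c₀ ∈ h.retSet (QuotientGroup.mk 1) := by
    rw [← h.smul_mem_retSet_iff g]
    simpa [c₀, MulAction.Quotient.smul_mk] using hne.1
  refine ⟨Quotient.out c₀, (Set.Finite.mem_toFinset _).mpr ⟨c₀, hc₀, rfl⟩, ?_⟩
  refine projLE_injective (C.UL.le u'.1) hL.ge ?_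
  rw [Subgroup.quotientMapOfLE_apply_mk, mul_assoc, ← smul_eq_mul, ← MulAction.Quotient.smul_mk,
    ← smul_eq_mul, ← MulAction.Quotient.smul_mk, QuotientGroup.out_eq']
  simp only [c₀, c, smul_inv_smul]
  rfl

/-- The weight zero sits on no translate. -/
theorem explicitAt_zero (δ : GL (Fin 2) K) :
    C.ExplicitAt δ (fun (_ : Fam C.B v) (_ : Pt C.X v) => (0 : ℝ)) :=
  ⟨1, ∅, Commute.one_left _, fun _ _ hne => absurd rfl hne⟩

end Ctx

end FermatAgent.LT2
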