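import Mathlib
import Fermat.Agent.LT2.Glue.Base

/-!
# Local gluing at a split place, one kernel for each place above
-/

set_option autoImplicit false

noncomputable section

open Matrix IsDedekindDomain NumberField
open scoped MatrixGroups

namespace FermatAgent.LT2

open FermatAgent.LT
open FermatAgent.LT.TwistCtx (Fam Pt incl ft actFam KerPair)

namespace Ctx

variable {K L : Type*} [Field K] [NumberField K] [Field L] [NumberField L] [Algebra K L]
  {C : Ctx K L} {v : HeightOneSpectrum (𝓞 K)}

/-- The preceding of the next place. -/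
lemma prev_next (u : C.Fib v) : C.prev (C.next u) = u :=
  Subtype.ext ((placeMap C.τ).symm_apply_apply u.1)

/-- The preceding place is two steps ahead. -/
lemma prev_eq_next_next (u : C.Fib v) : C.prev u = C.next (C.next u) :=
  Subtype.ext (C.twist.placeMap_symm u.1)

variable (hv : C.IsSplit v)

include hv in
/-- The next place is different. -/
lemma next_ne (u : C.Fib v) : C.next u ≠ u := fun e => hv u.1 u.2 (congrArg Subtype.val e)

include hv in
/-- Two steps give a different place. -/
lemma next_next_ne (u : C.Fib v) : C.next (C.next u) ≠ u := fun e =>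
  C.twist.placeMap_sq_ne (hv u.1 u.2) (congrArg Subtype.val e)

/-- The places of a split fibre. -/
lemma fib_cases (u u' : C.Fib v) :
    u' = u ∨ u' = C.next u ∨ u' = C.next (C.next u) := by
  rcases C.orbit (u'.2.trans u.2.symm) with e | e | e
  exacts [Or.inl (Subtype.ext e), Or.inr (Or.inl (Subtype.ext e)),
    Or.inr (Or.inr (Subtype.ext e))]

/-- The coordinates over the base. -/
def upEquiv (u : C.Fib v) : Pt C.X v ≃ G2 L ⧸ C.UL.loc u.1 :=
  Equiv.ofBijective _ (C.up_bijective hv u)

lemma upEquiv_apply (u : C.Fib v) (z : Pt C.X v) : upEquiv hv u z = C.up u z := rfl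

/-- An element above acting on the coordinates. -/
def coAct (γ : G2 L) (u : C.Fib v) : Pt C.X v ≃ Pt C.X v :=
  ((upEquiv hv u).trans (MulAction.toPerm γ)).trans (upEquiv hv u).symm

/-- The inclusion intertwines the co-action. -/
lemma up_coAct (γ : G2 L) (u : C.Fib v) (z : Pt C.X v) :
    C.up u (coAct hv γ u z) = γ • C.up u z :=
  (upEquiv hv u).apply_symm_apply (γ • C.up u z)

/-- The three steps compose to the norm. -/
lemma coAct_cycle {γ : G2 L} {δ : G2 K} (hN : tnrm C.τ γ = incl δ) (u : C.Fib v)
    (z : Pt C.X v) :
    coAct hv γ u (coAct hv γ (C.prev u) (coAct hv γ (C.prev (C.prev u)) z)) = δ • z := by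
  apply (upEquiv hv u).injective
  rw [upEquiv_apply, upEquiv_apply, up_coAct, ← C.sg_up u, up_coAct, ← C.sg_up (C.prev u),
    up_coAct, C.sg_smul (C.prev u), C.sg_up (C.prev u), C.sg_smul u, C.sg_smul u, C.sg_up u,
    ← mul_smul, ← mul_smul, C.up_smul, ← hN]
  rfl

open Classical in
/-- The families from coordinates. -/
def splitFam (u : C.Fib v) (p : Pt C.X v × Pt C.X v × Pt C.X v) : Fam C.B v := fun u' =>
  C.up u' (if u' = u then p.1 else if u' = C.next u then p.2.1 else p.2.2)

section

variable (u : C.Fib v) (p : Pt C.X v × Pt C.X v × Pt C.X v)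

/-- The first component of a split family. -/
lemma splitFam_fst : splitFam u p u = C.up u p.1 := by simp [splitFam]

include hv in
/-- The second component of a split family. -/
lemma splitFam_snd : splitFam u p (C.next u) = C.up (C.next u) p.2.1 := by
  simp [splitFam, next_ne hv u]

include hv in
/-- The third component of a split family. -/
lemma splitFam_thd : splitFam u p (C.next (C.next u)) = C.up (C.next (C.next u)) p.2.2 := by
  simp [splitFam, next_next_ne hv u, next_ne hv (C.next u)]

include hv in
/-- Split families correspond to triples. -/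
lemma splitFam_bijective : Function.Bijective (splitFam u (C := C)) :=
  bijective_of_three (C.up_bijective hv) (fib_cases u) (splitFam_fst u) (splitFam_snd hv u)
    (splitFam_thd hv u)

end

variable {D : C.Bad} (S : C.Sys D)

include hv in
lemma kw_up (u : C.Fib v) (a b : Pt C.X v) :
    (S.P.kw u.1).k (C.up u a) (C.up u b) = (S.kS v u).k a b :=
  S.kw_split v hv u a b

/-- Three steps return. -/
lemma next_next_next (u : C.Fib v) : C.next (C.next (C.next u)) = u := by
  rw [← prev_eq_next_next (C.next u), prev_next]

/-- The components below commute with every element above, by density. -/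
lemma kS_coAct (γ : G2 L) (u u' : C.Fib v) (a b : Pt C.X v) :
    (S.kS v u').k (coAct hv γ u a) (coAct hv γ u b) = (S.kS v u').k a b := by
  obtain ⟨g, ha, hb⟩ := exists_smul_eq_of_dense (φ := algebraMap K L) C.congrL
    (fun y r hr => C.twist.exists_near (hv u.1 u.2) y hr) γ (C.up u a) (C.up u b)
  have e : ∀ z, g2Map (algebraMap K L) g • C.up u z = γ • C.up u z → coAct hv γ u z = g • z :=
    fun z hz => (C.up_bijective hv u).1 (by
      rw [up_coAct, C.up_smul]
      exact hz.symm)
  rw [e a ha, e b hb, (S.kS v u').inv]

include hv in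
/-- The local kernels on a split family. -/
lemma loc_splitFam (γ : G2 L) (u : C.Fib v) (p : Pt C.X v × Pt C.X v × Pt C.X v) :
    ∏ u' : C.Fib v, (S.P.kw u'.1).k (ft C.B γ v (splitFam u p) u') (splitFam u p u') =
      (S.kS v u).k (coAct hv γ u p.2.2) p.1 *
        ((S.kS v (C.next u)).k (coAct hv γ (C.next u) p.1) p.2.1 *
          (S.kS v (C.next (C.next u))).k (coAct hv γ (C.next (C.next u)) p.2.1) p.2.2) := by
  classical
  have hu : (Finset.univ : Finset (C.Fib v)) = {u, C.next u, C.next (C.next u)} := by
    ext u'
    simpa using fib_cases u u'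
  have key : ∀ (u' : C.Fib v) (q r : Pt C.X v), splitFam u p (C.prev u') = C.up (C.prev u') q →
      splitFam u p u' = C.up u' r →
      (S.P.kw u'.1).k (ft C.B γ v (splitFam u p) u') (splitFam u p u') =
        (S.kS v u').k (coAct hv γ u' q) r := fun u' q r hq hr => by
    rw [C.ft_apply, hq, C.sg_up u', hr, ← up_coAct hv, kw_up hv S]
  rw [hu, Finset.prod_insert, Finset.prod_insert, Finset.prod_singleton,
    key u p.2.2 p.1, key (C.next u) p.1 p.2.1, key (C.next (C.next u)) p.2.1 p.2.2]
  · rw [prev_next, splitFam_snd hv]
  · exact splitFam_thd hv u p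
  · rw [prev_next, splitFam_fst]
  · exact splitFam_snd hv u p
  · rw [prev_eq_next_next, splitFam_thd hv]
  · exact splitFam_fst u p
  · simpa using (next_ne hv (C.next u)).symm
  · simp [(next_ne hv u).symm, (next_next_ne hv u).symm]

open Classical in
variable (C) in
/-- The weight at a split place: the coordinate at a chosen place is the given coset. -/
def splitA (u : C.Fib v) (x : Fam C.B v) (z : Pt C.X v) : ℝ :=
  if x u = C.up u z then 1 else 0

include hv in
/-- Gluing at a split place. -/
theorem locGlue_split {γ : G2 L} {δ : G2 K} (hN : tnrm C.τ γ = incl δ) (H : Subgroup (G2 K))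
    (u : C.Fib v) : C.LocGlue (fun u : C.Fib v => S.P.kw u.1) (S.P.kv v) γ δ H (C.splitA u) := by
  classical
  have key := fun z => LocKer.finite_and_tsum_cycle (S.kS v u) (S.kS v (C.next u))
    (S.kS v (C.next (C.next u))) (coAct hv γ u) (coAct hv γ (C.next u))
    (coAct hv γ (C.next (C.next u)))
    (fun a b => by rw [kS_coAct hv S, kS_coAct hv S]) (fun a b => by rw [kS_coAct hv S])
    (Equiv.ofBijective _ (splitFam_bijective hv u))
    (f := fun x => (∏ u' : C.Fib v, (S.P.kw u'.1).k (ft C.B γ v x u') (x u')) *
      (C.splitA u x z : ℂ)) z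
    fun a b c => by
      simp only [Equiv.ofBijective_apply, loc_splitFam hv, splitA, splitFam_fst,
        (C.up_bijective hv u).1.eq_iff]
      split_ifs with h <;> simp [h]
  refine ⟨fun x z => by unfold splitA; split_ifs <;> norm_num, fun z => (key z).1, fun z => ?_,
    fun x _ => (hasSum_indicator_of_bijective (C.up_bijective hv u) (x u)).1,
    fun x => (hasSum_indicator_of_bijective (C.up_bijective hv u) (x u)).2,
    fun h _ x z => ?_⟩
  · rw [S.kv_split v hv (C.next u), next_next_next u, (key z).2, ← coAct_cycle hv hN u z,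
      prev_eq_next_next, prev_next]
  · unfold splitA
    refine if_congr ?_ rfl rfl
    rw [C.up_smul]
    exact ⟨fun e => smul_left_cancel _ e, fun e => congrArg (incl h • ·) e⟩

end Ctx

end FermatAgent.LT2
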