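import Mathlib
import Fermat.Agent.LT.Descent.ClassesCentral
import Fermat.Agent.LT2.Glue.Split
import Fermat.Agent.LT2.Glue.Inert

/-!
# Gluing data of a representative at deep levels
-/

set_option autoImplicit false

noncomputable section

open Matrix IsDedekindDomain NumberField Filter
open scoped MatrixGroups Pointwise

namespace FermatAgent.LT2

open FermatAgent.LT
open FermatAgent.LT.TwistCtx (Fam Pt incl ft actFam KerPair)

namespace Ctx

variable {K L : Type*} [Field K] [NumberField K] [Field L] [NumberField L] [Algebra K L]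
  {C : Ctx K L} {D : C.Bad} (S : Sys D)

/-- The local data at a bad place with one place above serve every system. -/
lemma Sys.locGlue_bad {v : HeightOneSpectrum (𝓞 K)} (hS : v ∈ C.S) (hs : ¬C.IsSplit v)
    {γ : G2 L} {δ : G2 K} {H : Subgroup (G2 K)} {A : Fam C.B v → Pt C.X v → ℝ}
    (hA : C.LocGlue (fun u : C.Fib v => D.eL u.1) (D.fK v) γ δ H A) :
    C.LocGlue (fun u : C.Fib v => S.P.kw u.1) (S.P.kv v) γ δ H A := by
  have e : (fun u : C.Fib v => S.P.kw u.1) = fun u : C.Fib v => D.eL u.1 :=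
    funext fun u => S.kw_bad u.1 (by rw [u.2]; exact hs) (by rw [u.2]; exact hS)
  rw [e, S.kv_bad v hS hs]
  exact hA

/-- Away from the exceptional places the element above fixes what the element below fixes. -/
def GoodAt (C : Ctx K L) (γ : G2 L) (δ : G2 K) (v : HeightOneSpectrum (𝓞 K)) : Prop :=
  ∀ (u : C.Fib v) (c : G2 L ⧸ C.UL.loc u.1),
    incl (K := K) (L := L) δ • c = c → γ • c = c

variable {γ : G2 L} {δ : G2 K} {v : HeightOneSpectrum (𝓞 K)}

lemma lift_fix_of_good (hg : C.GoodAt γ δ v) {z : Pt C.X v} (hz : δ • z = z) :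
    ft C.B γ v (C.liftFam v z) = C.liftFam v z := by
  funext u
  rw [C.ft_apply]
  show γ • C.sg u (C.up (C.prev u) z) = C.up u z
  rw [C.sg_up]
  refine hg u _ ?_
  rw [← C.up_smul, hz]

lemma lift_injective (hv : v ∉ C.S) : Function.Injective (C.liftFam v) := by
  obtain ⟨w, hw⟩ := C.exists_over v
  intro a b e
  have e' := congrFun e ⟨w, hw⟩
  by_cases hs : C.IsSplit v
  · exact (C.up_bijective hs _).1 e'
  obtain ⟨u, hu⟩ := C.exists_fixed' hs
  have h := C.nonSplit hv hu
  refine C.bar_injective hv (h.upCos_injective ?_)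
  have e2 := congrArg (C.pr u) e
  revert e2
  induction a using QuotientGroup.induction_on with | H a =>
  induction b using QuotientGroup.induction_on with | H b =>
  exact id

lemma lift_surj_of_good (hN : tnrm C.τ γ = incl δ) (hv : v ∉ C.S)
    (hg : C.GoodAt γ δ v) {x : Fam C.B v} (hx : ft C.B γ v x = x) :
    ∃ z : Pt C.X v, δ • z = z ∧ C.liftFam v z = x := by
  obtain ⟨w, hw⟩ := C.exists_over v
  by_cases hs : C.IsSplit v
  · choose z hz using fun u => C.up_surjective hs u (x u)
    have hstep : ∀ u, coAct hs γ u (z (C.prev u)) = z u := fun u =>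
      (C.up_bijective hs u).1 (by rw [up_coAct, ← C.sg_up, hz, ← C.ft_apply, hx, hz])
    have hgood : ∀ u a, δ • a = a → coAct hs γ u a = a := fun u a ha =>
      (C.up_bijective hs u).1 (by rw [up_coAct]; exact hg u _ (by rw [← C.up_smul, ha]))
    obtain ⟨hfix, hconst⟩ := const_of_cycle prev_next
      (fun u => Subtype.ext (by simp [prev, C.twist.placeMap_symm, C.twist.placeMap_cube]))
      (fib_cases (⟨w, hw⟩ : C.Fib v)) (coAct hs γ) (coAct_cycle hs hN) hgood hstep
    refine ⟨z ⟨w, hw⟩, hfix, funext fun u => ?_⟩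
    show C.up u (z ⟨w, hw⟩) = x u
    rw [← hconst u, hz]
  · obtain ⟨u, hu⟩ := C.exists_fixed' hs
    have h := C.nonSplit hv hu
    have hr : ¬h.Ramified := C.not_ramified hv hu h
    have hmem : C.pr u x ∈ h.twFix γ := by
      show γ • h.sgCos (C.pr u x) = C.pr u x
      rw [← C.pr_ft hu h, hx]
    have hδ := h.tnrm_smul_of_mem hmem
    rw [hN] at hδ
    have hδx : incl (K := K) (L := L) δ • x u = x u :=
      projLE_injective (C.UL.le u.1) (C.UL_else u.1 (by rw [u.2]; exact hv)).ge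
        (by rw [projLE_smul]; exact hδ)
    have hγ : γ • C.pr u x = C.pr u x := by
      show γ • Subgroup.quotientMapOfLE _ (x u) = Subgroup.quotientMapOfLE _ (x u)
      rw [← projLE_smul, hg u _ hδx]
    have hsg : h.sgCos (C.pr u x) = C.pr u x := MulAction.injective γ (hmem.trans hγ.symm)
    obtain ⟨d, hd⟩ := (h.fixed_iff_inert (h.inert_or_ramified.resolve_right hr)).mp hsg
    obtain ⟨g, rfl⟩ := QuotientGroup.mk_surjective d
    have hlift : C.liftFam v (QuotientGroup.mk g) = x := (C.pr_bijective hu (C.UL_else' hv u)).1 hd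
    refine ⟨QuotientGroup.mk g, lift_injective hv ?_, hlift⟩
    rw [C.liftFam_smul, hlift]
    funext u'
    obtain rfl := C.subsingleton_fib hu u'
    exact hδx

/-- The gluing data from local data at finitely many places, with the constant lift. -/
theorem exists_glue_of_local' (H : Subgroup (G2 K)) (hN : tnrm C.τ γ = incl δ)
    (hm : ∀ g ∈ H, C.X.σ.conj (incl g) γ = γ) (hp : ∀ g ∈ H, g * δ * g⁻¹ = δ)
    (T₀ : Finset (HeightOneSpectrum (𝓞 K))) (hgood : ∀ v ∉ T₀, C.GoodAt γ δ v)
    (Pr : ∀ v, (Fam C.B v → Pt C.X v → ℝ) → Prop)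
    (hloc : ∀ v, ∃ A, C.LocGlue (fun u : C.Fib v => S.P.kw u.1) (S.P.kv v) γ δ H A ∧ Pr v A) :
    ∃ G : TwistCtx.Glue S.P γ δ H, (∀ v, Pr v (G.A v)) ∧ G.lift = C.liftFam := by
  classical
  choose A hA hPr using hloc
  refine ⟨{
    norm_eq := hN
    mem_twisted := hm
    mem_plain := hp
    T := T₀ ∪ S.P.T
    subset := Finset.subset_union_right
    A := A
    nonneg := fun v _ => (hA v).nonneg
    finite_x := fun v _ => (hA v).finite_x
    sum_x := fun v _ => (hA v).sum_x
    sum_z := fun v _ => (hA v).sum_z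
    finite_z := fun v _ => (hA v).finite_z
    equiv := fun v _ => (hA v).equiv
    lift := C.liftFam
    lift_fix := fun v hv z hz =>
      lift_fix_of_good (hgood v fun h => hv (Finset.mem_union_left _ h)) hz
    lift_surj := fun v hv x hx => lift_surj_of_good hN
      (fun h => hv (Finset.mem_union_right _ (S.S_sub h)))
      (hgood v fun h => hv (Finset.mem_union_left _ h)) hx
    lift_inj := fun v hv => lift_injective fun h => hv (Finset.mem_union_right _ (S.S_sub h))
    lift_smul := fun v _ g _ z => C.liftFam_smul g z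
    lift_base := fun v _ => funext fun u => by
      show C.up u (QuotientGroup.mk 1) = _
      rw [up_mk, map_one] }, hPr, rfl⟩

/-- The gluing data from local data at finitely many places. -/
theorem exists_glue_of_local (H : Subgroup (G2 K)) (hN : tnrm C.τ γ = incl δ)
    (hm : ∀ g ∈ H, C.X.σ.conj (incl g) γ = γ) (hp : ∀ g ∈ H, g * δ * g⁻¹ = δ)
    (T₀ : Finset (HeightOneSpectrum (𝓞 K))) (hgood : ∀ v ∉ T₀, C.GoodAt γ δ v)
    (Pr : ∀ v, (Fam C.B v → Pt C.X v → ℝ) → Prop)
    (hloc : ∀ v, ∃ A, C.LocGlue (fun u : C.Fib v => S.P.kw u.1) (S.P.kv v) γ δ H A ∧ Pr v A) :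
    ∃ G : TwistCtx.Glue S.P γ δ H, ∀ v, Pr v (G.A v) :=
  (exists_glue_of_local' S H hN hm hp T₀ hgood Pr hloc).imp fun _ h => h.1

section Rep

variable (δ : GL (Fin 2) K) (γ : GL (Fin 2) L)

variable {δ γ}

/-- Almost all places are good for a representative. -/
lemma eventually_good (hδ : (ProjGenLinGroup.mk δ : G2 K) ≠ 1) (hγ : IsRep C.τ δ γ) :
    ∀ᶠ v in cofinite, C.GoodAt (ProjGenLinGroup.mk γ) (ProjGenLinGroup.mk δ) v := by
  filter_upwards [eventually_smul_eq_of_rep C.b C.pair hδ hγ,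
    C.S.eventually_cofinite_notMem] with v hv hne u c hc
  refine projLE_injective (C.UL.le u.1) (C.UL_else u.1 (by rw [u.2]; exact hne)).ge ?_
  rw [projLE_smul]
  exact hv u.1 u.2 _ ((projLE_smul _ _ c).symm.trans (congrArg _ hc))

open Classical in
/-- Local weights for the systems: bad, inert and split places.  At a split place they pick a
given coordinate, elsewhere they are explicit. -/
lemma exists_local (hδ : (ProjGenLinGroup.mk δ : G2 K) ≠ 1) (hγ : IsRep C.τ δ γ)
    (v : HeightOneSpectrum (𝓞 K)) (u₁ : C.Fib v) :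
    ∃ A, C.LocGlue (fun u : C.Fib v => S.P.kw u.1) (S.P.kv v) (ProjGenLinGroup.mk γ)
      (ProjGenLinGroup.mk δ) (torus δ) A ∧ (C.IsSplit v → A = C.splitA u₁) ∧
      (¬C.IsSplit v → C.ExplicitAt δ A) := by
  by_cases hs : C.IsSplit v
  · exact ⟨C.splitA u₁, locGlue_split hs S hγ.tnrm_eq _ _, fun _ => rfl, fun h => absurd hs h⟩
  by_cases hS : v ∈ C.S
  · obtain ⟨A, hA, hE⟩ := D.glue_rep v hS hs δ γ hδ hγ
    exact ⟨A, S.locGlue_bad hS hs hA, fun h => absurd h hs, fun _ => hE⟩
  obtain ⟨u, hu⟩ := C.exists_fixed' hs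
  have h := C.nonSplit hS hu
  by_cases hgood : ∃ d : G2 K ⧸ locK v, (ProjGenLinGroup.mk δ : G2 K) • d = d
  · obtain ⟨t, htc, htr⟩ := h.exists_translate hδ hγ hgood
      fun hr => absurd hr (C.not_ramified hS hu h)
    refine ⟨C.nsA h (ProjGenLinGroup.mk t), C.locGlue_nonsplit hu
      (C.UL_else' hS u) h (C.kw_inert S hs hS) (C.relIndex_pos hS) δ _
      (fun z => C.kv_eq_count hu h S hs hS δ) htr fun g hg => ?_, fun h => absurd h hs,
      fun _ => C.explicitAt_nsA hu (C.UL_else' hS u) h htc⟩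
    obtain ⟨D, rfl⟩ := ProjGenLinGroup.mk_surjective g
    show Commute (g2Map (algebraMap K L) (ProjGenLinGroup.mk D)) _
    rw [ProjGenLinGroup.map_mk]
    exact (commute_of_commute_up hδ
      ((mk_mem_torus_iff.mp hg).map (GeneralLinearGroup.map (algebraMap K L))) htc).map _
  · refine ⟨fun _ _ => 0, C.locGlue_zero hu (C.UL_else' hS u) h (C.kw_inert S hs hS) _ ?_
      fun z => C.kv_eq_zero S hs hS δ ?_, fun h => absurd h hs, fun _ => C.explicitAt_zero δ⟩
    · exact Set.not_nonempty_iff_eq_empty.mp fun hne =>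
        hgood (h.fixes_of_twFix_nonempty hδ hγ hne)
    · exact fun hz => hgood ⟨_, hz⟩

/-- Gluing data of a representative. -/
theorem exists_glue (hδ : (ProjGenLinGroup.mk δ : G2 K) ≠ 1) (hγ : IsRep C.τ δ γ) :
    Nonempty (TwistCtx.Glue S.P (ProjGenLinGroup.mk γ) (ProjGenLinGroup.mk δ) (torus δ)) := by
  refine (exists_glue_of_local S _ hγ.tnrm_eq (fun g hg => ?_) (fun g hg => ?_)
    (eventually_cofinite.mp (eventually_good hδ hγ)).toFinset (fun v hv => ?_) (fun _ _ => True)
    fun v => (exists_local S hδ hγ v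
      ⟨(C.exists_over v).choose, (C.exists_over v).choose_spec⟩).imp
        fun _ h => ⟨h.1, trivial⟩).elim fun G _ => ⟨G⟩
  · exact C.twist.map_torus_le_tcent hδ hγ ⟨g, hg, rfl⟩
  · rw [mul_inv_eq_iff_eq_mul]
    exact Subgroup.mem_centralizer_singleton_iff.mp (torus_le_centralizer δ hg)
  · simpa using hv

end Rep

/-- Gluing data of the identity. -/
theorem exists_glue_one : Nonempty (TwistCtx.Glue S.P (1 : G2 L) (1 : G2 K) ⊤) := by
  have hN : tnrm C.τ (1 : G2 L) = incl (1 : G2 K) := by rw [tnrm_one, map_one]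
  refine (exists_glue_of_local S ⊤ hN (fun g _ => ?_) (fun g _ => by simp) ∅
    (fun v _ u c _ => one_smul _ c) (fun _ _ => True) fun v => ?_).elim fun G _ => ⟨G⟩
  · show incl g * 1 * (g2Map (C.τ : L →+* L) (incl g))⁻¹ = 1
    rw [mul_one, C.X.sg_incl, mul_inv_cancel]
  by_cases hs : C.IsSplit v
  · obtain ⟨w, hw⟩ := C.exists_over v
    exact ⟨_, locGlue_split hs S hN ⊤ ⟨w, hw⟩, trivial⟩
  by_cases hS : v ∈ C.S
  · obtain ⟨A, hA⟩ := D.glue_one v hS hs
    exact ⟨A, S.locGlue_bad hS hs hA, trivial⟩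
  obtain ⟨u, hu⟩ := C.exists_fixed' hs
  have h := C.nonSplit hS hu
  refine ⟨C.nsA h 1, ?_, trivial⟩
  have hl := C.locGlue_nonsplit hu (C.UL_else' hS u) h (C.kw_inert S hs hS) (C.relIndex_pos hS)
    (γ := 1) (t := 1) (1 : GL (Fin 2) K) ⊤ (fun z => C.kv_eq_count hu h S hs hS 1) ?_
    fun g _ => Commute.one_right _
  · rwa [map_one] at hl
  · ext x
    simp [NonSplit.twFix, NonSplit.baseFix]

/-- Twisted classes of norm one. -/
lemma mem_cls_one {c : G2 L} (hc : C.X.T.nrm c = 1) : c ∈ C.X.σ.cls 1 :=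
  C.twist.exists_tconj_of_tnrm_eq_one hc

/-- Fixed classes come from the base. -/
lemma exists_incl_of_fixed {g : G2 L} (hg : g2Map (C.τ : L →+* L) g = g) :
    ∃ d : G2 K, incl d = g :=
  C.twist.exists_incl_of_fixed hg

end Ctx

end FermatAgent.LT2
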