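import Mathlib
import Fermat.Agent.LT.Descent.GlueingMatch
import Fermat.Agent.LT2.Glue.Rep
import Fermat.Agent.LT.Descent.ClassesExist

/-!
# The trivial and elliptic terms agree for every system
-/

set_option autoImplicit false

noncomputable section

open Matrix IsDedekindDomain NumberField MeasureTheory
open scoped MatrixGroups

namespace FermatAgent.LT2

open FermatAgent.LT
open FermatAgent.LT.TwistCtx (Fam Pt incl ft actFam KerPair)

namespace Ctx

variable {K L : Type*} [Field K] [NumberField K] [Field L] [NumberField L] [Algebra K L]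
  {C : Ctx K L} {D : C.Bad} (S : Sys D)

lemma liesOver_iff {v : HeightOneSpectrum (𝓞 K)} {w : HeightOneSpectrum (𝓞 L)}
    [w.asIdeal.LiesOver v.asIdeal] : C.b w = v :=
  HeightOneSpectrum.ext
    ((C.b_eq w).trans (Ideal.LiesOver.over (P := w.asIdeal) (p := v.asIdeal)).symm)

section Index

variable {δ : GL (Fin 2) K} {γ : GL (Fin 2) L}

/-- A representative is glued with its norm. -/
theorem glued (hδ : (ProjGenLinGroup.mk δ : G2 K) ≠ 1) (hγ : IsRep C.τ δ γ) :
    TwistCtx.Glued S.P (ProjGenLinGroup.mk γ) (ProjGenLinGroup.mk δ) := by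
  obtain ⟨G⟩ := exists_glue S hδ hγ
  obtain ⟨h0, he⟩ := C.X.index_eq C.twist hδ hγ G
  exact ⟨torus δ, G, ⟨h0⟩, he⟩

end Index

/-- Nontrivial norms are glued. -/
theorem glued_of_nrm {δ : G2 K} (hδ : δ ≠ 1) {γ : G2 L} (hn : C.X.T.nrm γ = incl δ) :
    TwistCtx.Glued S.P γ δ := by
  obtain ⟨D, rfl⟩ := ProjGenLinGroup.mk_surjective δ
  obtain ⟨Γ, hΓ, rfl⟩ := C.X.exists_isRep_of_nrm C.twist hn
  exact glued S hδ hΓ

/-- Without representative the finite kernel below vanishes at the matrix. -/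
theorem kfin_eq_zero {δ : GL (Fin 2) K} (hδ : (ProjGenLinGroup.mk δ : G2 K) ≠ 1)
    (hno : ∀ γ, ¬IsRep C.τ δ γ) (z : FinCoset C.UK) :
    S.P.down.kfin ((ProjGenLinGroup.mk δ : G2 K) • z) z = 0 := by
  by_contra hne
  obtain ⟨hout, hin⟩ := S.P.down.kfin_ne_zero hne
  refine absurd (C.twist.exists_isRep_of_local C.ζ_prim hδ fun v => ?_) fun ⟨γ, hγ⟩ => hno γ hγ
  by_cases hs : C.IsSplit v
  · obtain ⟨w, hw⟩ := C.exists_over v
    exact Or.inl ⟨w, C.liesOver hw, hs w hw⟩
  by_cases hS : v ∈ C.S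
  · refine Or.inr ((D.norm_local v hS hs δ (z.1 v) ?_).imp_left
      fun h => ⟨h.1, h.2.1, fun _ _ _ => h.2.2⟩)
    have hk := hin v (S.S_sub hS)
    rw [← S.kv_bad v hS hs]
    exact hk
  obtain ⟨u, hu⟩ := C.exists_fixed' hs
  have h := C.nonSplit hS hu
  have hfix : (ProjGenLinGroup.mk δ : G2 K) • C.bar (z.1 v) = C.bar (z.1 v) := by
    by_cases hv : v ∈ S.P.T
    · exact by_contra fun hb => hin v hv (C.kv_eq_zero S hs hS δ hb)
    · exact (C.bar_smul _ _).symm.trans (congrArg C.bar (hout v hv))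
  refine Or.inr (Or.inl ⟨h.three, ⟨_, hfix⟩, fun w hw hval =>
    absurd ?_ (C.not_ramified hS hu h)⟩)
  have := hw
  obtain rfl : u = ⟨w, liesOver_iff⟩ := (C.subsingleton_fib hu _).symm
  exact hval

/-- The vanishing for the elliptic classes. -/
theorem kfin_eq_zero_ell {δ : G2 K} (hδ : δ ∈ TwistCtx.ellK (K := K))
    (hno : ∀ γ ∈ C.X.ellSet, C.X.T.nrm γ ≠ incl δ) (z : FinCoset C.X.UK) :
    S.P.down.kfin (δ • z) z = 0 := by
  obtain ⟨D, rfl, h1, hno'⟩ := C.X.exists_no_rep C.twist hδ hno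
  exact kfin_eq_zero S h1 hno' z

/-- Elliptic classes are glued with their norms. -/
theorem glued_ell {δ : G2 K} (hδ : δ ∈ TwistCtx.ellK (K := K)) {γ : G2 L}
    (hn : C.X.T.nrm γ = incl δ) :
    TwistCtx.Glued S.P γ δ :=
  glued_of_nrm S (fun e => (show ¬HasLine δ from hδ) (by rw [e]; exact hasLine_one)) hn

variable [IsTotallyComplex K] [IsTotallyComplex L]
  {sL : Set (Space C.UL)} (hsL : IsFundamentalDomain (G2 L) sL (Space.vol C.UL))
  {sK : Set (Space C.UK)} (hsK : IsFundamentalDomain (G2 K) sK (Space.vol C.UK))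

include hsL hsK in
/-- The elliptic parts of a system agree. -/
theorem integral_ell_eq :
    ∫ x in sL, C.X.σ.sumOn S.P.up.toPtKer C.X.ellSet x ∂Space.vol C.UL =
      ∫ x in sK, C.X.σK.sumOn S.P.down.toPtKer (TwistCtx.ellK (K := K)) x ∂Space.vol C.UK :=
  C.X.integral_ell S.P C.congrL C.congrK hsL hsK (C.X.corresp_ell C.twist)
    (fun _ hδ _ _ hn => glued_ell S hδ hn) fun _ hδ hno z => kfin_eq_zero_ell S hδ hno z

omit [IsTotallyComplex L] in
include hsL hsK in
/-- The trivial parts of a system agree. -/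
theorem integral_id_eq (hsKm : MeasurableSet sK) :
    Integrable (fun x => C.X.σ.sumOn S.P.up.toPtKer C.X.idSet x)
        ((Space.vol C.UL).restrict sL) ∧
      ∫ x in sL, C.X.σ.sumOn S.P.up.toPtKer C.X.idSet x ∂Space.vol C.UL =
        ∫ x in sK, S.P.down.toPtKer.k x x ∂Space.vol C.UK := by
  obtain ⟨G⟩ := exists_glue_one S
  exact C.X.integral_id S.P C.congrK hsL hsK hsKm (fun _ hc => mem_cls_one hc)
    (fun _ hg => exists_incl_of_fixed hg) G

end Ctx

end FermatAgent.LT2
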