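import Mathlib
import Fermat.Agent.LT.Descent.Spec.Geometric
import Fermat.Agent.LT2.Glue.Match

/-!
# The trace identity of a family of systems from its hyperbolic and unipotent parts

The elliptic and trivial parts agree term by term.  When the two sums of a family are bounded, the
hyperbolic truncated integrals vanish near zero and the averaged unipotent ones stay bounded, the
rest vanishes on each side separately.
-/

set_option autoImplicit false

noncomputable section

open Matrix IsDedekindDomain NumberField Filter MeasureTheory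
open scoped MatrixGroups Topology

namespace FermatAgent.LT2

open FermatAgent.LT

/-- An integrable `f = ∑ cᵢ (hᵢ + uᵢ)` has integral zero when the truncations of every `hᵢ` vanish
and those of every `uᵢ` have bounded primitives: the limit of the truncations of `f` is then both
the integral of `f` and, averaged over long intervals of `log ε`, zero. -/
theorem integral_eq_zero_of_parts {F : Type*} [Field F] [NumberField F]
    {U : Level F} {s : Set (Space U)} {f : Space U → ℂ}
    (hf : Integrable f ((Space.vol U).restrict s)) {ι : Type*} [Fintype ι] (coef : ι → ℂ)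
    (h u : ι → Space U → ℂ) (hfe : ∀ x, f x = ∑ i, coef i * (h i x + u i x))
    (hh : ∀ i, Space.TruncZero s (h i)) (hu : ∀ i, Space.TruncBdd s (u i)) :
    ∫ x in s, f x ∂Space.vol U = 0 := by
  classical
  set J : ι → ℝ → ℂ := fun i ε => ∫ x in s, u i x * (Space.trunc ε x : ℂ) ∂Space.vol U
  have hev : ∀ᶠ ε in 𝓝[>] (0 : ℝ),
      ∫ x in s, f x * (Space.trunc ε x : ℂ) ∂Space.vol U = ∑ i, coef i * J i ε := by
    filter_upwards [eventually_all.mpr hh, self_mem_nhdsWithin] with ε hε hpos
    have e : ∀ x, f x * (Space.trunc ε x : ℂ) = ∑ i, (coef i * (h i x * (Space.trunc ε x : ℂ)) +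
        coef i * (u i x * (Space.trunc ε x : ℂ))) := fun x => by
      rw [hfe, Finset.sum_mul]
      exact Finset.sum_congr rfl fun i _ => by ring
    rw [integral_congr_ae (ae_of_all _ e),
      integral_finsetSum _ fun i _ =>
        ((hε i).1.const_mul _).fun_add (((hu i).1 ε hpos).const_mul _)]
    refine Finset.sum_congr rfl fun i _ => ?_
    rw [integral_add ((hε i).1.const_mul _) (((hu i).1 ε hpos).const_mul _), integral_const_mul,
      integral_const_mul, (hε i).2, mul_zero, zero_add]
  have hlim : Tendsto (fun t : ℝ => ∑ i, coef i * J i (Real.exp t)) atBot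
      (𝓝 (∫ x in s, f x ∂Space.vol U)) :=
    ((FermatAgent.LT.Ctx.tendsto_integral_trunc hf).congr' hev).comp Real.tendsto_exp_atBot_nhdsGT
  choose M s₀ hM using fun i => (hu i).2
  obtain ⟨b, hb⟩ := (Set.finite_range s₀).bddBelow
  refine FermatAgent.LT.Ctx.eq_zero_of_integral_le (s₀ := b) (M := ∑ i, ‖coef i‖ * M i) hlim
    fun A B hAB hB => ?_
  have hi : ∀ i ∈ (Finset.univ : Finset ι),
      IntervalIntegrable (fun t => coef i * J i (Real.exp t)) volume A B := fun i _ =>
    ((hM i A B hAB (hB.trans (hb ⟨i, rfl⟩))).1).const_mul _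
  refine ⟨?_, ?_⟩
  · have := IntervalIntegrable.sum Finset.univ hi
    rwa [Finset.sum_fn] at this
  · rw [intervalIntegral.integral_finsetSum hi]
    refine (norm_sum_le _ _).trans (Finset.sum_le_sum fun i _ => ?_)
    rw [intervalIntegral.integral_const_mul, norm_mul]
    exact mul_le_mul_of_nonneg_left (hM i A B hAB (hB.trans (hb ⟨i, rfl⟩))).2 (norm_nonneg _)

namespace Ctx

variable {K L : Type*} [Field K] [NumberField K] [Field L] [NumberField L] [Algebra K L]
  [IsTotallyComplex K] [IsTotallyComplex L]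

omit [IsTotallyComplex L] in
/-- Elliptic sums below are bounded. -/
theorem bounded_sumOn_ellK (X : TwistCtx K L) (hU : X.UK.IsCongr) (k : PtKer X.UK) :
    ∃ B, ∀ x, ‖X.σK.sumOn k (TwistCtx.ellK (K := K)) x‖ ≤ B := by
  obtain ⟨M, hM, hb⟩ := X.bounded_absCls_ellK hU k
  refine ⟨M.toReal, fun x => ?_⟩
  have h := (X.σK.enorm_sumOn_le k _ x).trans (hb x)
  rw [← toReal_enorm]
  exact ENNReal.toReal_mono hM h

omit [IsTotallyComplex K] [IsTotallyComplex L] in
/-- The twisted kernel above is the sum over the four types of classes. -/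
private lemma aut_up_eq_sum (X : TwistCtx K L) (k : PtKer X.UL) (x : Space X.UL) :
    k.aut (X.σ.map x) x = X.σ.sumOn k X.ellSet x + X.σ.sumOn k X.idSet x +
      (X.σ.sumOn k X.hypSet x + X.σ.sumOn k (X.parSet \ X.idSet) x) := by
  have hidpar : X.idSet ⊆ X.parSet := fun c (hc : X.T.nrm c = 1) => by
    show IsUnip (X.T.nrm c)
    rw [hc]
    exact FermatAgent.LT.Ctx.isUnip_one
  have e1 : X.σ.sumOn k X.parSet x =
      X.σ.sumOn k X.idSet x + X.σ.sumOn k (X.parSet \ X.idSet) x := by
    rw [← X.σ.sumOn_union k Set.disjoint_sdiff_right, Set.union_sdiff_cancel hidpar]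
  rw [← X.σ.sumOn_univ k x, ← X.union_types, X.σ.sumOn_union, X.σ.sumOn_union, e1]
  · ring
  · exact Set.disjoint_left.mpr fun c hc hc' => hc.2 hc'
  · refine Set.disjoint_left.mpr fun c hc hc' => ?_
    rcases hc' with h | h
    · exact hc h.1
    · exact hc (IsUnip.hasLine h)

omit [IsTotallyComplex K] [IsTotallyComplex L] in
/-- The kernel below is the sum over the four types of classes. -/
private lemma aut_down_eq_sum (X : TwistCtx K L) (k : PtKer X.UK) (x : Space X.UK) :
    k.aut x x = X.σK.sumOn k (TwistCtx.ellK (K := K)) x + k.k x x +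
      (X.σK.sumOn k (FermatAgent.LT.Hyp.hypK K) x +
        X.σK.sumOn k (FermatAgent.LT.Ctx.uniK K) x) := by
  set unipK : Set (G2 K) := {δ | IsUnip δ}
  have hsplitU : unipK = {1} ∪ FermatAgent.LT.Ctx.uniK K := by
    ext δ
    by_cases h : δ = 1 <;>
      simp [unipK, FermatAgent.LT.Ctx.uniK, h, FermatAgent.LT.Ctx.isUnip_one]
  have hone : X.σK.sumOn k {1} x = k.k x x := by
    unfold Semilin.sumOn
    rw [tsum_eq_single (1 : G2 K) fun c hc => Set.indicator_of_notMem (by simpa using hc) _,
      Set.indicator_of_mem (Set.mem_singleton _), X.σK_term, one_smul]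
  rw [show k.aut x x = X.σK.sumOn k Set.univ x from (X.σK.sumOn_univ k x).symm,
    show (Set.univ : Set (G2 K)) = TwistCtx.ellK (K := K) ∪ (FermatAgent.LT.Hyp.hypK K ∪ unipK) by
      ext δ
      simp only [TwistCtx.ellK, FermatAgent.LT.Hyp.hypK, unipK, Set.mem_univ, Set.mem_union,
        Set.mem_ofPred_eq, true_iff]
      tauto, X.σK.sumOn_union, X.σK.sumOn_union, hsplitU,
    X.σK.sumOn_union k (Set.disjoint_singleton_left.mpr fun h => h.2 rfl), hone]
  · ring
  · exact Set.disjoint_left.mpr fun c hc hc' => hc.2 hc'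
  · refine Set.disjoint_left.mpr fun c hc hc' => ?_
    rcases hc' with h | h
    · exact hc h.1
    · exact hc (IsUnip.hasLine h)

variable {C : Ctx K L} {D : C.Bad} {sL : Set (Space C.UL)}
  (hsL : IsFundamentalDomain (G2 L) sL (Space.vol C.UL))
  {sK : Set (Space C.UK)} (hsK : IsFundamentalDomain (G2 K) sK (Space.vol C.UK))
  (hsKm : MeasurableSet sK) {ι : Type*} [Fintype ι] (coef : ι → ℂ) (S : ι → Sys D)

include hsL hsK hsKm in
/-- For a finite combination of systems with bounded kernels on both diagonals, the traces above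
(twisted by the automorphism) and below agree once, on each side, the hyperbolic sums have
vanishing truncations and the unipotent ones bounded ones. -/
theorem trace_eq_of_parts
    (hL : ∃ B, ∀ x, ‖∑ i, coef i * (S i).P.up.toPtKer.aut (C.X.σ.map x) x‖ ≤ B)
    (hK : ∃ B, ∀ x, ‖∑ i, coef i * (S i).P.down.toPtKer.aut x x‖ ≤ B)
    (hypL : ∀ i, Space.TruncZero sL (C.X.σ.sumOn (S i).P.up.toPtKer C.X.hypSet))
    (hypK : ∀ i, Space.TruncZero sK
      (C.X.σK.sumOn (S i).P.down.toPtKer (FermatAgent.LT.Hyp.hypK K)))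
    (uniL : ∀ i, Space.TruncBdd sL (C.X.σ.sumOn (S i).P.up.toPtKer (C.X.parSet \ C.X.idSet)))
    (uniK : ∀ i, Space.TruncBdd sK
      (C.X.σK.sumOn (S i).P.down.toPtKer (FermatAgent.LT.Ctx.uniK K))) :
    ∫ x in sL, ∑ i, coef i * (S i).P.up.toPtKer.aut (C.X.σ.map x) x ∂Space.vol C.UL =
      ∫ x in sK, ∑ i, coef i * (S i).P.down.toPtKer.aut x x ∂Space.vol C.UK := by
  classical
  have : IsFiniteMeasure ((Space.vol C.UL).restrict sL) :=
    ⟨by rw [Measure.restrict_apply_univ]; exact measure_fundamentalDomain_lt_top C.congrL hsL⟩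
  have : IsFiniteMeasure ((Space.vol C.UK).restrict sK) :=
    ⟨by rw [Measure.restrict_apply_univ]; exact measure_fundamentalDomain_lt_top C.congrK hsK⟩
  set σ := C.X.σ
  set σK := C.X.σK
  set kL := fun i => (S i).P.up.toPtKer
  set kK := fun i => (S i).P.down.toPtKer
  have iEL : ∀ i, Integrable (σ.sumOn (kL i) C.X.ellSet) ((Space.vol C.UL).restrict sL) := fun i =>
    FermatAgent.LT.Ctx.integrable_sumOn σ (kL i) _ sL
      (C.X.bounded_sumOn_of C.congrL (kL i) (Or.inl rfl) (Or.inl rfl))
  have iEK : ∀ i, Integrable (σK.sumOn (kK i) (TwistCtx.ellK (K := K)))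
      ((Space.vol C.UK).restrict sK) := fun i =>
    FermatAgent.LT.Ctx.integrable_sumOn σK (kK i) _ sK (bounded_sumOn_ellK C.X C.congrK (kK i))
  have iIL := fun i => integral_id_eq (S i) hsL hsK hsKm
  have iIK : ∀ i, Integrable (fun x => (kK i).k x x) ((Space.vol C.UK).restrict sK) := fun i =>
    Integrable.of_bound ((kK i).meas.comp (measurable_id.prodMk measurable_id)).aestronglyMeasurable
      (kK i).C (ae_of_all _ fun x => (kK i).bound x x)
  -- the matched parts
  set gL : Space C.UL → ℂ := fun x =>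
    ∑ i, coef i * (σ.sumOn (kL i) C.X.ellSet x + σ.sumOn (kL i) C.X.idSet x)
  set gK : Space C.UK → ℂ := fun x =>
    ∑ i, coef i * (σK.sumOn (kK i) (TwistCtx.ellK (K := K)) x + (kK i).k x x)
  have igL : Integrable gL ((Space.vol C.UL).restrict sL) :=
    integrable_finsetSum _ fun i _ => ((iEL i).fun_add (iIL i).1).const_mul _
  have igK : Integrable gK ((Space.vol C.UK).restrict sK) :=
    integrable_finsetSum _ fun i _ => ((iEK i).fun_add (iIK i)).const_mul _
  have hg : ∫ x in sL, gL x ∂Space.vol C.UL = ∫ x in sK, gK x ∂Space.vol C.UK := by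
    rw [integral_finsetSum _ fun i _ => ((iEL i).fun_add (iIL i).1).const_mul _,
      integral_finsetSum _ fun i _ => ((iEK i).fun_add (iIK i)).const_mul _]
    refine Finset.sum_congr rfl fun i _ => ?_
    rw [integral_const_mul, integral_const_mul, integral_add (iEL i) (iIL i).1,
      integral_add (iEK i) (iIK i), (iIL i).2, integral_ell_eq (S i) hsL hsK]
  -- the rest vanishes
  obtain ⟨BL, hBL⟩ := hL
  obtain ⟨BK, hBK⟩ := hK
  set aL : Space C.UL → ℂ := fun x => ∑ i, coef i * (kL i).aut (σ.map x) x
  set aK : Space C.UK → ℂ := fun x => ∑ i, coef i * (kK i).aut x x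
  have mL : Measurable aL := Finset.measurable_sum _ fun i _ => Measurable.const_mul (by
    simp only [← σ.sumOn_univ]; exact σ.measurable_sumOn (kL i) _) _
  have mK : Measurable aK := Finset.measurable_sum _ fun i _ => Measurable.const_mul (by
    rw [show (fun x => (kK i).aut x x) = σK.sumOn (kK i) Set.univ from
      funext fun x => (σK.sumOn_univ (kK i) x).symm]
    exact σK.measurable_sumOn (kK i) _) _
  have iaL : Integrable aL ((Space.vol C.UL).restrict sL) :=
    Integrable.of_bound mL.aestronglyMeasurable BL (ae_of_all _ hBL)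
  have iaK : Integrable aK ((Space.vol C.UK).restrict sK) :=
    Integrable.of_bound mK.aestronglyMeasurable BK (ae_of_all _ hBK)
  have zL : ∫ x in sL, (aL x - gL x) ∂Space.vol C.UL = 0 :=
    integral_eq_zero_of_parts (f := fun x => aL x - gL x) (iaL.sub igL) coef _ _ (fun x => by
      simp only [aL, gL, ← Finset.sum_sub_distrib]
      exact Finset.sum_congr rfl fun i _ => by rw [aut_up_eq_sum C.X (kL i) x]; ring)
      hypL uniL
  have zK : ∫ x in sK, (aK x - gK x) ∂Space.vol C.UK = 0 :=
    integral_eq_zero_of_parts (f := fun x => aK x - gK x) (iaK.sub igK) coef _ _ (fun x => by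
      simp only [aK, gK, ← Finset.sum_sub_distrib]
      exact Finset.sum_congr rfl fun i _ => by rw [aut_down_eq_sum C.X (kK i) x]; ring)
      hypK uniK
  rw [integral_sub iaL igL, sub_eq_zero] at zL
  rw [integral_sub iaK igK, sub_eq_zero] at zK
  show ∫ x in sL, aL x ∂Space.vol C.UL = ∫ x in sK, aK x ∂Space.vol C.UK
  rw [zL, zK, hg]

end Ctx

end FermatAgent.LT2
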